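import Fermat.Agent.S44.Low.Seams
import Fermat.Agent.S56.Flat.ClassL

/-!
# S44, cell [CHI-RAM] (prefix `s44c_`)

The mod `p` cyclotomic character is ramified at `p` (`p ≠ 2`): for a place `A` of `ℚ̄` above `p`
and a primitive `p`-th root of unity `ζ` there is `σ₀` in the inertia group of `A` with
`σ₀ ζ = ζ ^ k₀`, `k₀ ≢ 1 mod p`.  This is `s44_ChiRam_stmt Fr` of `S44/Low/Seams.lean` for every
frame `Fr` with `Fr.A` above `p` and `Fr.ζ` primitive (`s44c_chiRam_frame`).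

Input: `s56fc_exists_moves_zeta` (S56/Flat/ClassL.lean: an inertia-fixed non-unit is divisible by
`p`, and `(ζ - 1) ^ (p - 1) ∼ p`).
-/

set_option autoImplicit false

namespace Fermat.Agent.S44

open Fermat.Agent.S56

/-- **[CHI-RAM]**, frame-independent form. -/
theorem s44c_chiRam (p : ℕ) [Fact p.Prime] (hp2 : p ≠ 2) (A : ValuationSubring s44_Qb)
    (hA : A.LiesOverPrime p) (ζ : s44_Qb) (hζ : IsPrimitiveRoot ζ p) :
    ∃ σ₀ ∈ A.inertiaSubgroupIn ℚ, ∃ k₀ : ℕ, σ₀ ζ = ζ ^ k₀ ∧ ¬ (k₀ : ℤ) ≡ 1 [ZMOD (p : ℤ)] := by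
  have hp : p.Prime := Fact.out
  have : NeZero p := ⟨hp.ne_zero⟩
  obtain ⟨σ, hσ⟩ := s56fc_exists_moves_zeta A hp2 hA hζ
  have hσ' : (σ : s44_G) ζ ≠ ζ := hσ
  have hpow : ((σ : s44_G) ζ) ^ p = 1 := by rw [← map_pow, hζ.pow_eq_one, map_one]
  obtain ⟨k₀, -, hk₀⟩ := hζ.eq_pow_of_pow_eq_one hpow
  refine ⟨(σ : s44_G), σ.2, k₀, hk₀.symm, fun hmod => hσ' ?_⟩
  rw [← hk₀]
  have h1 : (p : ℤ) ∣ (k₀ : ℤ) - 1 := (Int.modEq_iff_dvd.1 hmod.symm)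
  have h2 : ζ ^ ((k₀ : ℤ) - 1) = 1 := by
    obtain ⟨t, ht⟩ := h1
    rw [ht, zpow_mul, zpow_natCast, hζ.pow_eq_one, one_zpow]
  have hζ0 : ζ ≠ 0 := hζ.ne_zero hp.ne_zero
  have h3 : ζ ^ (k₀ : ℤ) = ζ ^ ((k₀ : ℤ) - 1) * ζ := by
    rw [← zpow_add_one₀ hζ0, sub_add_cancel]
  rw [← zpow_natCast, h3, h2, one_mul]

/-- **[CHI-RAM]** for a frame whose place lies above `p` and whose `ζ` is primitive. -/
theorem s44c_chiRam_frame {P : FreyPackage} {M : ℕ} [NeZero M] [NeZero (M * P.p)]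
    (Fr : s44_Frame P M) (hA : Fr.A.LiesOverPrime P.p)
    (hζ : IsPrimitiveRoot Fr.ζ P.p) : s44_ChiRam_stmt Fr := by
  have : Fact P.p.Prime := ⟨P.pp⟩
  have hp2 : P.p ≠ 2 := by
    have := P.hp5
    omega
  exact s44c_chiRam P.p hp2 Fr.A hA Fr.ζ hζ

end Fermat.Agent.S44
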