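import Fermat.Agent.S44.ChiRam.Main
import Fermat.Agent.S44.Frame2

/-!
# S44 [CHI-RAM] for the frame v2 (helper24)

`s44c_chiRam_frame2 P M hpM : s44_ChiRam_stmt (s44_frame2 P M hpM)` — the field `chiRam` of
`s44_FrameOK (s44_frame2 P M hpM)`.
-/

set_option autoImplicit false

namespace Fermat.Agent.S44

/-- **[CHI-RAM]** for `s44_frame2`. -/
theorem s44c_chiRam_frame2 (P : FreyPackage) (M : ℕ) [NeZero M] [NeZero (M * P.p)]
    (hpM : ¬ P.p ∣ M) : s44_ChiRam_stmt (s44_frame2 P M hpM) :=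
  s44c_chiRam_frame (s44_frame2 P M hpM) (s44_frame2_A_liesOver P M hpM)
    (s44_frame2_zeta_spec P M hpM)

end Fermat.Agent.S44
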